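import Mathlib
import Fermat.Agent.LT.T6.Spec

/-!
# Row LT, tower T6, leaf T6.13 (`FLEllUnrC`) -- sub-spec (helper60), OFF-MAIN

The fundamental lemma for `GL₂` at a regular elliptic `γ` with `k[γ]/k` UNRAMIFIED
([L] = Langlands, *Base change for GL(2)*, §5) is cut into three leaves:

* `BCGeoC` (T6.13.1, pure algebra): the base-change relation `IsBC` turns the weighted count
  `wGeo` on the tree of `k` into the weighted count `wTw` on the tree of `k'`;
* `OrbEllUnrC` (T6.13.2): the orbital integral of a spherical function at `γ` is the sum over the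
  vertices `p` of the tree of `k` of `f (inv (p, γ p))`, i.e. `∑ f(λ) · wGeo q r j λ`, where
  `ord det γ = 2 j`, `ord disc γ = 2 j + 2 r` (`γ = ϖ^j u`, the fixed points of `u` are the ball of
  radius `r` around the vertex of `𝒪_{k[γ]}`);
* `TwOrbEllUnrC` (T6.13.3): the twisted orbital integral at `δ` (`N δ ∼ γ`) is the sum over the
  vertices `p` of the tree of `k'` of `φ (inv (p, δ σ p))`, i.e. `∑ φ(λ) · wTw q l r j λ`.

`flEllUnr_of_leaves : BCGeoC → OrbEllUnrC → TwOrbEllUnrC → FLEllUnrC` is PROVED here.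

Counts (tree of valency `q + 1`, `V = ballCard q r` = number of vertices of a ball of radius `r`):
`#{p : inv (p, γ p) = (j, j)} = V`, `#{p : inv (p, γ p) = (j + d, j - d)} = (q + 1) q^(r + d - 1)`
(`d ≥ 1`).  Twisted, `Q = q ^ l`, `F = δ σ`, `F ^ l = γ`: if `l ∣ j` then `F` fixes a vertex, its
fixed points are `V` in number (the ball of radius `r` of the tree of `k`), and
`#{p : inv (p, F p) = (j/l + d, j/l - d)} = ((Q - 1) V + 2) Q^(d - 1)`; if `l ∤ j` then `l = 2`,
`k' ≅ k[γ]`, `F` inverts an edge and `#{p : inv (p, F p) = (a, b)} = 2 Q^e` for `a + b = j`,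
`a - b = 2 e + 1`.
-/

set_option autoImplicit false

open scoped Matrix

noncomputable section

namespace Fermat.Agent.LT.T6.H60

open Fermat.Agent.LT.T6

/-- The (additive) valuation of `det γ`. -/
def ordDet {k : Type} [Field k] [Valued k Γ₀] (γ : GL (Fin 2) k) : ℤ :=
  - WithZero.log (Valued.v (γ : Matrix (Fin 2) (Fin 2) k).det)

/-- The (additive) valuation of the discriminant of `γ`. -/
def ordDisc {k : Type} [Field k] [Valued k Γ₀] (γ : GL (Fin 2) k) : ℤ :=
  - WithZero.log (Valued.v (disc γ))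

/-- The number of vertices of a ball of radius `r` in a tree of valency `q + 1`. -/
def ballCard (q r : ℕ) : ℕ := 1 + (q + 1) * ∑ i ∈ Finset.range r, q ^ i

/-- The generic weight: `V` at `(j, j)`, `((q - 1) V + 2) q^(d - 1)` at `(j + d, j - d)`, `d ≥ 1`,
`0` elsewhere: the number of vertices `p` with `inv (p, g p) = lam` for an automorphism `g` of a
tree of valency `q + 1` with exactly `V ≥ 1` fixed vertices, acting on lattices with
`ord det = 2 j`. -/
def wFix (q : ℂ) (V : ℂ) (j : ℤ) (lam : ℤ × ℤ) : ℂ :=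
  if lam.1 + lam.2 = 2 * j then
    if lam.1 = lam.2 then V
    else if lam.2 < lam.1 then ((q - 1) * V + 2) * q ^ ((lam.1 - j).toNat - 1)
    else 0
  else 0

/-- The weight of `lam` on the tree of `k` (`γ = ϖ^j u`, `u` fixes the ball of radius `r`). -/
def wGeo (q r : ℕ) (j : ℤ) (lam : ℤ × ℤ) : ℂ :=
  wFix (q : ℂ) (ballCard q r : ℂ) j lam

/-- The twisted weight of `lam` on the tree of `k'` (valency `q ^ l + 1`) when `δ σ` fixes a
vertex (`ord det δ = 2 j'`). -/
def wTwEven (q l r : ℕ) (j' : ℤ) (lam : ℤ × ℤ) : ℂ :=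
  wFix ((q : ℂ) ^ l) (ballCard q r : ℂ) j' lam

/-- The twisted weight of `lam` on the tree of `k'` (`l = 2`, valency `q ^ 2 + 1`) when `δ σ`
inverts an edge (`ord det δ = j` odd): `2 (q²)^e` at `lam = (a, b)`, `a + b = j`,
`a - b = 2 e + 1`. -/
def wTwOdd (q : ℕ) (j : ℤ) (lam : ℤ × ℤ) : ℂ :=
  if lam.1 + lam.2 = j ∧ lam.2 < lam.1 then
    2 * ((q : ℂ) ^ 2) ^ ((lam.1 - lam.2 - 1) / 2).toNat
  else 0

/-- The twisted weight. -/
def wTw (q l r : ℕ) (j : ℤ) (lam : ℤ × ℤ) : ℂ :=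
  if (l : ℤ) ∣ j then wTwEven q l r (j / (l : ℤ)) lam else wTwOdd q j lam

/-- **T6.13.1 (BCGeo), pure algebra.**  If `f = b(φ)` then the weighted counts agree. -/
def BCGeoC : Prop :=
  ∀ (q l r : ℕ) (j : ℤ), 1 < q → l.Prime → ((l : ℤ) ∣ j ∨ l = 2) →
    ∀ φ f : (ℤ × ℤ) →₀ ℂ, IsDominant φ → IsDominant f → IsBC l q φ f →
      (f.sum fun lam c => c * wGeo q r j lam) = φ.sum fun lam c => c * wTw q l r j lam

/-- **T6.13.2 (OrbEllUnr).**  The orbital integral at a regular elliptic `γ` with `k[γ]/k`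
unramified, as a weighted count on the tree of `k`. -/
def OrbEllUnrC : Prop :=
  ∀ (k : Type) [Field k] [Valued k Γ₀] (q : ℕ), IsLocalField k q →
    ∀ γ : GL (Fin 2) k, IsReg γ → ¬ HasEigen k γ → ¬ HasRamUnif k γ →
      ∃ (j : ℤ) (r : ℕ), ordDet γ = 2 * j ∧ ordDisc γ = 2 * j + 2 * (r : ℤ) ∧
        ∀ (f : (ℤ × ℤ) →₀ ℂ) (c' : ℂ), IsOrbSum 0 (fun g => f (cartan g)) γ c' →
          c' = f.sum fun lam c => c * wGeo q r j lam

/-- **T6.13.3 (TwOrbEllUnr).**  The twisted orbital integral at `δ`, `N δ ∼ γ` regular elliptic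
with `k[γ]/k` unramified, as a weighted count on the tree of `k'`. -/
def TwOrbEllUnrC : Prop :=
  ∀ (k k' : Type) [Field k] [Field k'] [Valued k Γ₀] [Valued k' Γ₀] (q l : ℕ)
    (i : k →+* k') (s : k' ≃+* k'),
    IsLocalField k q → IsLocalField k' (q ^ l) → IsLocalExt k k' l 1 i s → l.Prime →
    ∀ (δ : GL (Fin 2) k') (γ : GL (Fin 2) k), IsReg γ → ¬ HasEigen k γ → ¬ HasRamUnif k γ →
      IsConj (twNorm s l δ) (Matrix.GeneralLinearGroup.map i γ) →
      ∀ (j : ℤ) (r : ℕ), ordDet γ = 2 * j → ordDisc γ = 2 * j + 2 * (r : ℤ) →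
        ((l : ℤ) ∣ j ∨ l = 2) ∧
        ∀ (φ : (ℤ × ℤ) →₀ ℂ) (c : ℂ), IsTwOrbSum s 0 (fun g => φ (cartan g)) δ c →
          c = φ.sum fun lam a => a * wTw q l r j lam

/-- The residue field of a local field has at least two elements. -/
theorem one_lt_of_isLocalField {k : Type} [Field k] [Valued k Γ₀] {q : ℕ}
    (h : IsLocalField k q) : 1 < q := by
  obtain ⟨T, hT, -, -, hrep⟩ := h.residue
  obtain ⟨x0, hx0, h0⟩ := hrep 0 (by simp)
  obtain ⟨x1, hx1, h1⟩ := hrep 1 (by simp)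
  have hne : x0 ≠ x1 := by
    rintro rfl
    have e : (1 : k) = (1 - x0) - (0 - x0) := by ring
    have h2 : Valued.v (1 : k) < 1 := by
      rw [e]
      exact lt_of_le_of_lt (Valuation.map_sub _ _ _) (max_lt h1 h0)
    simp at h2
  rw [← hT]
  exact Finset.one_lt_card.2 ⟨x0, hx0, x1, hx1, hne⟩

/-- **T6.13 from its three leaves.** -/
theorem flEllUnr_of_leaves (hA : BCGeoC) (hG : OrbEllUnrC) (hT : TwOrbEllUnrC) : FLEllUnrC := by
  intro k k' _ _ _ _ q l i s hk hk' hext hl φ f hφ hf hbc δ γ c c' hreg hP hconj hc hc'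
  obtain ⟨j, r, hj, hr, hgeo⟩ := hG k q hk γ hreg hP.1 hP.2
  obtain ⟨hdvd, htw⟩ := hT k k' q l i s hk hk' hext hl δ γ hreg hP.1 hP.2 hconj j r hj hr
  rw [htw φ c hc, hgeo f c' hc']
  exact (hA q l r j (one_lt_of_isLocalField hk) hl hdvd φ f hφ hf hbc).symm

end Fermat.Agent.LT.T6.H60
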