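import Mathlib
import Fermat.Agent.LT.T6.H60.EllUnrSpec
import Fermat.Agent.LT.T6.H340.BTTree

/-!
# Row LT, tower T6, leaf T6.13 -- finer sub-spec on the tree of helper340 (helper60), OFF-MAIN

The two orbit-sum leaves `OrbEllUnrC` (T6.13.2) and `TwOrbEllUnrC` (T6.13.3) of
`EllUnrSpec.lean` are cut, on the tree `BTVert340` of helper340
(`Fermat/Agent/LT/T6/H340/BTTree.lean`), into

* `VertSumGeoC` (T6.13.2a) / `VertSumTwC` (T6.13.3a): the (twisted) orbit sum is the PLAIN sum
  over the vertices `v` of `f (inv (v, γ v))` (unfolding: the centraliser is `ϖ^ℤ × T^c`);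
* `FixGeoC` (T6.13.2b): `ord det γ = 2 j`, `ord disc γ = 2 j + 2 r` and `γ` fixes exactly
  `ballCard q r` vertices of the tree of `k`;
* `FixTwC` (T6.13.3b): if `δ σ` fixes a vertex of the tree of `k'`, it fixes exactly
  `ballCard q r` vertices.

The assembly (`EllUnrAsm.lean`) proves `VertSumGeoC → FixGeoC → OrbEllUnrC` and
`VertSumTwC → FixGeoC → FixTwC → TwOrbEllUnrC` from the displacement counts of helper338
(`ncard_disp_even338`, `ncard_disp_odd338`, `fixed_or_inv338`).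

`inv (v, γ v)` is written `invOf60 (ordDet γ) (btDist340 v (btMul340 γ v))`: the Cartan invariant
`(a, b)` with `a + b = ord det γ` and `a - b` = the displacement
(`cartan (x⁻¹ γ x) = invOf60 (ordDet γ) (btDist340 [x] (γ [x]))`, proved in `EllUnrAsm.lean`:
`cartan_conj60`, `cartan_twconj60`).
-/

set_option autoImplicit false

open scoped Matrix

noncomputable section

namespace Fermat.Agent.LT.T6.H60

open Fermat.Agent.LT.T6 Fermat.Agent.LT.T6.H340

/-- The Cartan invariant `(a, b)` with `a + b = D`, `a - b = d`. -/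
def invOf60 (D : ℤ) (d : ℕ) : ℤ × ℤ := ((D + d) / 2, (D - d) / 2)

/-- **T6.13.2a (VertSumGeo).**  The orbital integral at a regular elliptic `γ` with `k[γ]/k`
unramified is the plain sum over the vertices of the tree of `k`. -/
def VertSumGeoC : Prop :=
  ∀ (k : Type) [Field k] [Valued k Γ₀] (q : ℕ), IsLocalField k q →
    ∀ γ : GL (Fin 2) k, IsReg γ → ¬ HasEigen k γ → ¬ HasRamUnif k γ →
      ∀ (f : (ℤ × ℤ) →₀ ℂ) (c' : ℂ), IsOrbSum 0 (fun g => f (cartan g)) γ c' →
        ∀ S : Finset (BTVert340 k),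
          (∀ v : BTVert340 k,
            f (invOf60 (ordDet γ) (btDist340 v (btMul340 γ v))) ≠ 0 → v ∈ S) →
          c' = ∑ v ∈ S, f (invOf60 (ordDet γ) (btDist340 v (btMul340 γ v)))

/-- **T6.13.3a (VertSumTw).**  The twisted orbital integral at `δ`, `N δ ∼ γ` regular elliptic
with `k[γ]/k` unramified, is the plain sum over the vertices of the tree of `k'`. -/
def VertSumTwC : Prop :=
  ∀ (k k' : Type) [Field k] [Field k'] [Valued k Γ₀] [Valued k' Γ₀] (q l : ℕ)
    (i : k →+* k') (s : k' ≃+* k'),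
    IsLocalField k q → IsLocalField k' (q ^ l) → ∀ hext : IsLocalExt k k' l 1 i s, l.Prime →
    ∀ (δ : GL (Fin 2) k') (γ : GL (Fin 2) k), IsReg γ → ¬ HasEigen k γ → ¬ HasRamUnif k γ →
      IsConj (twNorm s l δ) (Matrix.GeneralLinearGroup.map i γ) →
      ∀ (φ : (ℤ × ℤ) →₀ ℂ) (c : ℂ), IsTwOrbSum s 0 (fun g => φ (cartan g)) δ c →
        ∀ S : Finset (BTVert340 k'),
          (∀ v : BTVert340 k',
            φ (invOf60 (ordDet δ) (btDist340 v (btTw340 s hext.val_s δ v))) ≠ 0 → v ∈ S) →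
          c = ∑ v ∈ S, φ (invOf60 (ordDet δ) (btDist340 v (btTw340 s hext.val_s δ v)))

/-- **T6.13.2b (FixGeo).**  A regular elliptic `γ` with `k[γ]/k` unramified has
`ord det γ = 2 j`, `ord disc γ = 2 j + 2 r`, and fixes exactly the `ballCard q r` vertices of a
ball of radius `r` of the tree of `k`. -/
def FixGeoC : Prop :=
  ∀ (k : Type) [Field k] [Valued k Γ₀] (q : ℕ), IsLocalField k q →
    ∀ γ : GL (Fin 2) k, IsReg γ → ¬ HasEigen k γ → ¬ HasRamUnif k γ →
      ∃ (j : ℤ) (r : ℕ), ordDet γ = 2 * j ∧ ordDisc γ = 2 * j + 2 * (r : ℤ) ∧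
        {v : BTVert340 k | btMul340 γ v = v}.ncard = ballCard q r

/-- **T6.13.3b (FixTw).**  If `δ σ` (`N δ ∼ γ` regular elliptic, `k[γ]/k` unramified,
`ord disc γ - ord det γ = 2 r`) fixes a vertex of the tree of `k'`, then it fixes exactly
`ballCard q r` vertices. -/
def FixTwC : Prop :=
  ∀ (k k' : Type) [Field k] [Field k'] [Valued k Γ₀] [Valued k' Γ₀] (q l : ℕ)
    (i : k →+* k') (s : k' ≃+* k'),
    IsLocalField k q → IsLocalField k' (q ^ l) → ∀ hext : IsLocalExt k k' l 1 i s, l.Prime →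
    ∀ (δ : GL (Fin 2) k') (γ : GL (Fin 2) k), IsReg γ → ¬ HasEigen k γ → ¬ HasRamUnif k γ →
      IsConj (twNorm s l δ) (Matrix.GeneralLinearGroup.map i γ) →
      ∀ (j : ℤ) (r : ℕ), ordDet γ = 2 * j → ordDisc γ = 2 * j + 2 * (r : ℤ) →
        (∃ v : BTVert340 k', btTw340 s hext.val_s δ v = v) →
        {v : BTVert340 k' | btTw340 s hext.val_s δ v = v}.ncard = ballCard q r

end Fermat.Agent.LT.T6.H60
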