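import Mathlib
import Fermat.Agent.LT.T6.H60.EllUnrSpec

/-!
# Row LT, tower T6, sub-leaf T6.13.1 `BCGeoC` (helper60), OFF-MAIN

Pure algebra: if `f = b(φ)` (`IsBC l q φ f`) then the weighted vertex counts on the tree of `k`
and on the tree of `k'` agree.

* `satPoly_closed60` : `satPoly q x y n = (√q)^n (h_n - (x y / q) h_(n-2))`, `h_m` the complete
  homogeneous sum of degree `m` (Macdonald's formula for `GL₂`).
* `ev60_eq_zero` : the characters `(x, y) ↦ x^a y^b` of `(ℂˣ)²` are linearly independent, so a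
  Laurent polynomial vanishing on `(ℂˣ)²` has zero coefficients.
* `phi_even60`, `phi_odd60` : the functionals `V c_0 + 2 ∑_{e ≥ 1} q^(-e) c_e` and
  `2 ∑_{a > b} q^(-(a - b)) c_(a, b)` on the Satake basis.
* `bcGeo60 : BCGeoC`, `flEllUnr_of_orb60 : OrbEllUnrC → TwOrbEllUnrC → FLEllUnrC`.
-/

set_option autoImplicit false

noncomputable section

namespace Fermat.Agent.LT.T6.H60

open Fermat.Agent.LT.T6

/-- `√q` as a complex number. -/
def sq60 (q : ℕ) : ℂ := ((Real.sqrt q : ℝ) : ℂ)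

theorem sq60_sq (q : ℕ) : sq60 q ^ 2 = (q : ℂ) := by
  unfold sq60
  have h : (Real.sqrt q) ^ 2 = (q : ℝ) := Real.sq_sqrt (Nat.cast_nonneg q)
  exact_mod_cast h

theorem sq60_sq_nat (q : ℕ) : sq60 (q ^ 2) = (q : ℂ) := by
  unfold sq60
  have h : Real.sqrt ((q ^ 2 : ℕ) : ℝ) = (q : ℝ) := by
    rw [Nat.cast_pow]
    exact Real.sqrt_sq (Nat.cast_nonneg q)
  rw [h]
  norm_cast

/-- The complete homogeneous sum `∑_{i < m} x^i y^(m - 1 - i)`. -/
def hSum60 (x y : ℂ) (m : ℕ) : ℂ := ∑ i ∈ Finset.range m, x ^ i * y ^ (m - 1 - i)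

theorem hSum60_zero (x y : ℂ) : hSum60 x y 0 = 0 := by simp [hSum60]

theorem hSum60_one (x y : ℂ) : hSum60 x y 1 = 1 := by simp [hSum60]

theorem hSum60_succ (x y : ℂ) (m : ℕ) : hSum60 x y (m + 1) = x ^ m + y * hSum60 x y m := by
  unfold hSum60
  rw [Finset.sum_range_succ, Finset.mul_sum, add_comm]
  congr 1
  · simp
  · refine Finset.sum_congr rfl fun i hi => ?_
    have hi' : i < m := Finset.mem_range.1 hi
    have e : m + 1 - 1 - i = (m - 1 - i) + 1 := by omega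
    rw [e, pow_succ]
    ring

theorem hSum60_succ' (x y : ℂ) (m : ℕ) : hSum60 x y (m + 1) = y ^ m + x * hSum60 x y m := by
  unfold hSum60
  rw [Finset.sum_range_succ', Finset.mul_sum, add_comm]
  congr 1
  · simp
  · refine Finset.sum_congr rfl fun i hi => ?_
    have hi' : i < m := Finset.mem_range.1 hi
    have e : m + 1 - 1 - (i + 1) = m - 1 - i := by omega
    rw [e, pow_succ]
    ring

theorem hSum60_rec (x y : ℂ) (m : ℕ) :
    hSum60 x y (m + 2) = (x + y) * hSum60 x y (m + 1) - x * y * hSum60 x y m := by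
  have ha := hSum60_succ' x y (m + 1)
  have hc := hSum60_succ' x y m
  linear_combination ha - y * hc

theorem sq60_ne_zero (q : ℕ) (hq : 0 < q) : sq60 q ≠ 0 := by
  intro h
  have h2 := sq60_sq q
  rw [h] at h2
  have : (q : ℂ) = 0 := by rw [← h2]; ring
  exact hq.ne' (by exact_mod_cast this)

theorem satPoly_closed60 (q : ℕ) (hq : 0 < q) (x y : ℂ) (n : ℕ) :
    satPoly q x y n
      = sq60 q ^ n * (hSum60 x y (n + 1) - (q : ℂ)⁻¹ * (x * y) * hSum60 x y (n - 1)) := by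
  have hs0 := sq60_ne_zero q hq
  have hs := sq60_sq q
  induction n using Nat.strong_induction_on with
  | _ n ih =>
    match n, ih with
    | 0, _ => simp [satPoly, hSum60_one, hSum60_zero]
    | 1, _ =>
      have e : satPoly q x y 1 = sq60 q * (x + y) := by simp [satPoly, sq60]
      rw [e, show (1 : ℕ) - 1 = 0 from rfl, hSum60_zero, hSum60_succ, hSum60_one]
      ring
    | 2, _ =>
      have e : satPoly q x y 2 = (sq60 q * (x + y)) ^ 2 - ((q : ℂ) + 1) * (x * y) := by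
        simp [satPoly, sq60]
      rw [e, show (2 : ℕ) - 1 = 1 from rfl, hSum60_one, hSum60_rec, hSum60_succ, hSum60_one,
        ← hs]
      field_simp
      ring
    | (m + 3), ih =>
      have h2 := ih (m + 2) (by omega)
      have h1 := ih (m + 1) (by omega)
      have e : satPoly q x y (m + 3) = sq60 q * (x + y) * satPoly q x y (m + 2)
          - (q : ℂ) * (x * y) * satPoly q x y (m + 1) := by
        simp [satPoly, sq60]
      rw [e, h2, h1]
      rw [show m + 3 + 1 = (m + 2) + 2 from rfl, hSum60_rec x y (m + 2),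
        show m + 3 - 1 = m + 2 from rfl, show m + 2 - 1 = m + 1 from rfl,
        show m + 1 - 1 = m from rfl, show m + 2 + 1 = m + 3 from rfl,
        show m + 1 + 1 = m + 2 from rfl]
      have r2 := hSum60_rec x y m
      rw [r2, ← hs]
      field_simp
      ring

/-! ### Laurent polynomials in two variables as coefficient vectors -/

/-- Evaluation of the Laurent polynomial with coefficient vector `P` at `(x, y)`. -/
def ev60 (x y : ℂ) : ((ℤ × ℤ) →₀ ℂ) →ₗ[ℂ] ℂ :=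
  Finsupp.linearCombination ℂ (fun ab : ℤ × ℤ => x ^ ab.1 * y ^ ab.2)

/-- The coefficient vector of `(x y)^b h_m (x, y)`. -/
def seg60 (b : ℤ) (m : ℕ) : (ℤ × ℤ) →₀ ℂ :=
  ∑ i ∈ Finset.range m, Finsupp.single (b + (i : ℤ), b + ((m - 1 - i : ℕ) : ℤ)) (1 : ℂ)

theorem ev60_seg60 (x y : ℂ) (hx : x ≠ 0) (hy : y ≠ 0) (b : ℤ) (m : ℕ) :
    ev60 x y (seg60 b m) = (x * y) ^ b * hSum60 x y m := by
  unfold ev60 seg60 hSum60
  rw [map_sum, Finset.mul_sum]
  refine Finset.sum_congr rfl fun i _ => ?_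
  rw [Finsupp.linearCombination_single, one_smul]
  simp only
  rw [zpow_add₀ hx, zpow_add₀ hy, zpow_natCast, zpow_natCast, mul_zpow]
  ring

/-- The coefficient vector of the Satake transform of `1_{K diag(ϖ^a, ϖ^b) K}`. -/
def satCoef60 (q : ℕ) (lam : ℤ × ℤ) : (ℤ × ℤ) →₀ ℂ :=
  sq60 q ^ (lam.1 - lam.2).toNat •
    (seg60 lam.2 ((lam.1 - lam.2).toNat + 1)
      - (q : ℂ)⁻¹ • seg60 (lam.2 + 1) ((lam.1 - lam.2).toNat - 1))

theorem ev60_satCoef60 (q : ℕ) (hq : 0 < q) (x y : ℂ) (hx : x ≠ 0) (hy : y ≠ 0)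
    (lam : ℤ × ℤ) : ev60 x y (satCoef60 q lam) = satake q lam x y := by
  unfold satCoef60 satake
  rw [map_smul, map_sub, map_smul, ev60_seg60 x y hx hy, ev60_seg60 x y hx hy,
    satPoly_closed60 q hq, zpow_add₀ (mul_ne_zero hx hy), zpow_one]
  simp only [smul_eq_mul]
  ring

/-- The substitution `(x, y) ↦ (x^l, y^l)` on coefficient vectors. -/
def dil60 (l : ℕ) : ((ℤ × ℤ) →₀ ℂ) →ₗ[ℂ] ((ℤ × ℤ) →₀ ℂ) :=
  Finsupp.lmapDomain ℂ ℂ (fun ab : ℤ × ℤ => ((l : ℤ) * ab.1, (l : ℤ) * ab.2))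

theorem ev60_dil60 (x y : ℂ) (l : ℕ) (P : (ℤ × ℤ) →₀ ℂ) :
    ev60 x y (dil60 l P) = ev60 (x ^ l) (y ^ l) P := by
  unfold ev60 dil60
  rw [Finsupp.lmapDomain_apply, Finsupp.linearCombination_mapDomain]
  congr 2
  funext ab
  simp only [Function.comp_apply]
  rw [zpow_mul, zpow_mul, zpow_natCast, zpow_natCast]

theorem lc_dil60 (w : ℤ × ℤ → ℂ) (l : ℕ) (P : (ℤ × ℤ) →₀ ℂ) :
    Finsupp.linearCombination ℂ w (dil60 l P)
      = Finsupp.linearCombination ℂ
          (fun ab : ℤ × ℤ => w ((l : ℤ) * ab.1, (l : ℤ) * ab.2)) P := by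
  unfold dil60
  rw [Finsupp.lmapDomain_apply, Finsupp.linearCombination_mapDomain]
  rfl

/-- Independence of the characters `(x, y) ↦ x^a y^b` of `(ℂˣ)²`. -/
theorem ev60_eq_zero (P : (ℤ × ℤ) →₀ ℂ)
    (h : ∀ x y : ℂ, x ≠ 0 → y ≠ 0 → ev60 x y P = 0) : P = 0 := by
  let χ : ℤ × ℤ → (ℂˣ × ℂˣ →* ℂ) := fun ab =>
    { toFun := fun xy => ((xy.1 : ℂ) ^ ab.1 * (xy.2 : ℂ) ^ ab.2)
      map_one' := by simp
      map_mul' := by
        intro u v
        simp only [Prod.fst_mul, Prod.snd_mul, Units.val_mul, mul_zpow]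
        ring }
  have hχ : Function.Injective χ := by
    intro ab ab' hab
    have two : (2 : ℂ) ≠ 0 := two_ne_zero
    have key : ∀ a a' : ℤ, (2 : ℂ) ^ a = (2 : ℂ) ^ a' → a = a' := by
      intro a a' haa
      have h1 : ‖(2 : ℂ) ^ a‖ = ‖(2 : ℂ) ^ a'‖ := by rw [haa]
      rw [norm_zpow, norm_zpow] at h1
      have h2 : ‖(2 : ℂ)‖ = 2 := by simp
      rw [h2] at h1
      exact zpow_right_injective₀ (by norm_num) (by norm_num) h1
    have e1 := DFunLike.congr_fun hab (Units.mk0 2 two, 1)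
    have e2 := DFunLike.congr_fun hab (1, Units.mk0 2 two)
    simp only [χ, MonoidHom.coe_mk, OneHom.coe_mk, Units.val_mk0, Units.val_one, one_zpow,
      mul_one, one_mul] at e1 e2
    exact Prod.ext (key _ _ e1) (key _ _ e2)
  have hli := (linearIndependent_monoidHom (ℂˣ × ℂˣ) ℂ).comp χ hχ
  rw [linearIndependent_iff] at hli
  apply hli
  funext xy
  have hh := h xy.1 xy.2 (Units.ne_zero _) (Units.ne_zero _)
  rw [ev60, Finsupp.linearCombination_apply] at hh
  rw [Finsupp.linearCombination_apply, Finsupp.sum, Finset.sum_apply]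
  simp only [Pi.zero_apply, Pi.smul_apply, Function.comp_apply]
  rw [Finsupp.sum] at hh
  exact hh

/-! ### The weight functionals -/

/-- The functional `V c_0 + 2 ∑_{e ≥ 1} qi^e c_e` on the part of degree `2 j`. -/
def wt60 (V qi : ℂ) (j : ℤ) (ab : ℤ × ℤ) : ℂ :=
  if ab.1 + ab.2 = 2 * j then
    if ab.1 = ab.2 then V
    else if ab.2 < ab.1 then 2 * qi ^ (ab.1 - j).toNat
    else 0
  else 0

/-- The functional `2 ∑_{a > b} qi^(a - b) c_(a, b)` on the part of degree `j`. -/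
def wtOdd60 (qi : ℂ) (j : ℤ) (ab : ℤ × ℤ) : ℂ :=
  if ab.1 + ab.2 = j ∧ ab.2 < ab.1 then 2 * qi ^ (ab.1 - ab.2).toNat else 0

theorem lc_seg60 (w : ℤ × ℤ → ℂ) (b : ℤ) (m : ℕ) :
    Finsupp.linearCombination ℂ w (seg60 b m)
      = ∑ i ∈ Finset.range m, w (b + (i : ℤ), b + ((m - 1 - i : ℕ) : ℤ)) := by
  unfold seg60
  rw [map_sum]
  refine Finset.sum_congr rfl fun i _ => ?_
  rw [Finsupp.linearCombination_single, one_smul]

theorem lc_satCoef60 (w : ℤ × ℤ → ℂ) (q : ℕ) (lam : ℤ × ℤ) :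
    Finsupp.linearCombination ℂ w (satCoef60 q lam)
      = sq60 q ^ (lam.1 - lam.2).toNat *
        (Finsupp.linearCombination ℂ w (seg60 lam.2 ((lam.1 - lam.2).toNat + 1))
          - (q : ℂ)⁻¹ *
            Finsupp.linearCombination ℂ w (seg60 (lam.2 + 1) ((lam.1 - lam.2).toNat - 1))) := by
  unfold satCoef60
  rw [map_smul, map_sub, map_smul]
  simp only [smul_eq_mul]

/-- A weight vanishing on the antidiagonal `u + v = 2 b + m - 1` kills the segment. -/
theorem lc_seg60_eq_zero (w : ℤ × ℤ → ℂ) (b : ℤ) (m : ℕ)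
    (hw : ∀ ab : ℤ × ℤ, ab.1 + ab.2 = 2 * b + m - 1 → w ab = 0) :
    Finsupp.linearCombination ℂ w (seg60 b m) = 0 := by
  rw [lc_seg60]
  refine Finset.sum_eq_zero fun i hi => hw _ ?_
  have hi' : i < m := Finset.mem_range.1 hi
  simp only
  omega

theorem lc_satCoef60_eq_zero (w : ℤ × ℤ → ℂ) (q : ℕ) (lam : ℤ × ℤ) (hlam : lam.2 ≤ lam.1)
    (hw : ∀ ab : ℤ × ℤ, ab.1 + ab.2 = lam.1 + lam.2 → w ab = 0) :
    Finsupp.linearCombination ℂ w (satCoef60 q lam) = 0 := by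
  rw [lc_satCoef60, lc_seg60_eq_zero, lc_seg60]
  · rw [Finset.sum_eq_zero]
    · ring
    · intro i hi
      have hi' : i < (lam.1 - lam.2).toNat - 1 := Finset.mem_range.1 hi
      refine hw _ ?_
      simp only
      omega
  · intro ab hab
    refine hw ab ?_
    omega

theorem seg_even60 (V qi : ℂ) (j : ℤ) (d : ℕ) :
    Finsupp.linearCombination ℂ (wt60 V qi j) (seg60 (j - d) (2 * d + 1))
      = V + ∑ e ∈ Finset.range d, 2 * qi ^ (e + 1) := by
  rw [lc_seg60, show 2 * d + 1 = d + (d + 1) by ring, Finset.sum_range_add,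
    Finset.sum_range_succ']
  rw [Finset.sum_eq_zero, zero_add, add_comm]
  · congr 1
    · unfold wt60
      simp only
      rw [if_pos (by omega), if_pos (by omega)]
    · refine Finset.sum_congr rfl fun i hi => ?_
      have hi' : i < d := Finset.mem_range.1 hi
      unfold wt60
      simp only
      rw [if_pos (by omega), if_neg (by omega), if_pos (by omega)]
      congr 2
      omega
  · intro i hi
    have hi' : i < d := Finset.mem_range.1 hi
    unfold wt60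
    simp only
    rw [if_pos (by omega), if_neg (by omega), if_neg (by omega)]

theorem seg_odd60 (qi : ℂ) (c : ℤ) (e : ℕ) :
    Finsupp.linearCombination ℂ (wtOdd60 qi (2 * c + 1)) (seg60 (c - e) (2 * e + 2))
      = ∑ t ∈ Finset.range (e + 1), 2 * qi ^ (2 * t + 1) := by
  rw [lc_seg60, show 2 * e + 2 = (e + 1) + (e + 1) by ring, Finset.sum_range_add]
  rw [Finset.sum_eq_zero, zero_add]
  · refine Finset.sum_congr rfl fun i hi => ?_
    have hi' : i < e + 1 := Finset.mem_range.1 hi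
    unfold wtOdd60
    simp only
    rw [if_pos ⟨by omega, by omega⟩]
    congr 2
    omega
  · intro i hi
    have hi' : i < e + 1 := Finset.mem_range.1 hi
    unfold wtOdd60
    simp only
    rw [if_neg]
    intro h
    omega

theorem lc_seg60_zero (w : ℤ × ℤ → ℂ) (b : ℤ) :
    Finsupp.linearCombination ℂ w (seg60 b 0) = 0 := by
  rw [lc_seg60]; simp

/-- The functional `wt60` on the Satake basis: the generic weight `wFix`. -/
theorem phi_even60 (q : ℕ) (hq : 0 < q) (V : ℂ) (j : ℤ) (lam : ℤ × ℤ) (hlam : lam.2 ≤ lam.1) :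
    Finsupp.linearCombination ℂ (wt60 V (q : ℂ)⁻¹ j) (satCoef60 q lam)
      = wFix (q : ℂ) V j lam := by
  have hq0 : (q : ℂ) ≠ 0 := by exact_mod_cast hq.ne'
  by_cases hs : lam.1 + lam.2 = 2 * j
  · obtain ⟨a, b⟩ := lam
    simp only at hlam hs
    obtain ⟨d, hd⟩ : ∃ d : ℕ, a = j + d := ⟨(a - j).toNat, by omega⟩
    have hb : b = j - d := by omega
    subst hd hb
    rw [lc_satCoef60]
    simp only
    have hn : (j + (d : ℤ) - (j - d)).toNat = 2 * d := by omega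
    rw [hn]
    unfold wFix
    simp only
    rw [if_pos (by ring)]
    rcases d with _ | d'
    · rw [show 2 * 0 - 1 = 0 from rfl, lc_seg60_zero]
      have := seg_even60 V (q : ℂ)⁻¹ j 0
      simp only [Nat.cast_zero, sub_zero, mul_zero, zero_add, Finset.range_zero,
        Finset.sum_empty, add_zero] at this ⊢
      rw [this]
      simp
    · rw [show 2 * (d' + 1) - 1 = 2 * d' + 1 by omega,
        show j - ((d' + 1 : ℕ) : ℤ) + 1 = j - (d' : ℤ) by push_cast; ring,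
        seg_even60 V (q : ℂ)⁻¹ j (d' + 1), seg_even60 V (q : ℂ)⁻¹ j d',
        Finset.sum_range_succ']
      rw [if_neg (by omega), if_pos (by omega)]
      have he : (j + ((d' + 1 : ℕ) : ℤ) - j).toNat - 1 = d' := by omega
      rw [he]
      have hsum : (q : ℂ)⁻¹ * ∑ e ∈ Finset.range d', 2 * (q : ℂ)⁻¹ ^ (e + 1)
          = ∑ e ∈ Finset.range d', 2 * (q : ℂ)⁻¹ ^ (e + 1 + 1) := by
        rw [Finset.mul_sum]
        refine Finset.sum_congr rfl fun e _ => ?_
        ring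
      have hp : sq60 q ^ (2 * (d' + 1)) = (q : ℂ) ^ (d' + 1) := by
        rw [pow_mul, sq60_sq]
      rw [hp, mul_sub, mul_add ((q : ℂ)⁻¹), hsum]
      have hqi : (q : ℂ) * (q : ℂ)⁻¹ = 1 := mul_inv_cancel₀ hq0
      linear_combination ((q : ℂ) ^ d' * (2 - V)) * hqi
  · rw [lc_satCoef60_eq_zero _ _ _ hlam]
    · unfold wFix
      rw [if_neg hs]
    · intro ab hab
      unfold wt60
      rw [if_neg (by omega)]

/-- The functional `wtOdd60` on the Satake basis for `q²`: the weight `wTwOdd`. -/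
theorem phi_odd60 (q : ℕ) (hq : 0 < q) (j : ℤ) (hj : ¬ (2 : ℤ) ∣ j) (lam : ℤ × ℤ)
    (hlam : lam.2 ≤ lam.1) :
    Finsupp.linearCombination ℂ (wtOdd60 (q : ℂ)⁻¹ j) (satCoef60 (q ^ 2) lam)
      = wTwOdd q j lam := by
  have hq0 : (q : ℂ) ≠ 0 := by exact_mod_cast hq.ne'
  by_cases hs : lam.1 + lam.2 = j
  · obtain ⟨a, b⟩ := lam
    simp only at hlam hs
    obtain ⟨c, hc⟩ : ∃ c : ℤ, j = 2 * c + 1 := ⟨j / 2, by omega⟩
    obtain ⟨e, he⟩ : ∃ e : ℕ, a = c + e + 1 := ⟨(a - c - 1).toNat, by omega⟩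
    have hb : b = c - e := by omega
    subst hc he hb
    rw [lc_satCoef60]
    simp only
    have hn : (c + (e : ℤ) + 1 - (c - e)).toNat = 2 * e + 1 := by omega
    rw [hn, show 2 * e + 1 + 1 = 2 * e + 2 from rfl, seg_odd60, sq60_sq_nat]
    have h2 : Finsupp.linearCombination ℂ (wtOdd60 (q : ℂ)⁻¹ (2 * c + 1))
        (seg60 (c - (e : ℤ) + 1) (2 * e + 1 - 1))
        = ∑ t ∈ Finset.range e, 2 * (q : ℂ)⁻¹ ^ (2 * t + 1) := by
      rcases e with _ | e'
      · rw [show 2 * 0 + 1 - 1 = 0 from rfl, lc_seg60_zero]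
        simp
      · rw [show 2 * (e' + 1) + 1 - 1 = 2 * e' + 2 by omega,
          show c - ((e' + 1 : ℕ) : ℤ) + 1 = c - (e' : ℤ) by push_cast; ring, seg_odd60]
    rw [h2, Finset.sum_range_succ']
    unfold wTwOdd
    simp only
    rw [if_pos ⟨by ring, by omega⟩]
    have hexp : ((c + (e : ℤ) + 1 - (c - e) - 1) / 2).toNat = e := by omega
    rw [hexp]
    have hsum : (((q ^ 2 : ℕ) : ℂ))⁻¹ * ∑ t ∈ Finset.range e, 2 * (q : ℂ)⁻¹ ^ (2 * t + 1)
        = ∑ t ∈ Finset.range e, 2 * (q : ℂ)⁻¹ ^ (2 * (t + 1) + 1) := by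
      rw [Finset.mul_sum]
      refine Finset.sum_congr rfl fun t _ => ?_
      push_cast
      rw [← inv_pow]
      ring
    rw [hsum]
    have hqi : (q : ℂ) * (q : ℂ)⁻¹ = 1 := mul_inv_cancel₀ hq0
    linear_combination (2 * (q : ℂ) ^ (2 * e)) * hqi
  · rw [lc_satCoef60_eq_zero _ _ _ hlam]
    · unfold wTwOdd
      rw [if_neg (fun h => hs h.1)]
    · intro ab hab
      unfold wtOdd60
      rw [if_neg (fun h => hs (by omega))]

theorem wt60_dil_even (V qi : ℂ) (l : ℕ) (hl : 0 < l) (j' : ℤ) (ab : ℤ × ℤ) :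
    wt60 V qi ((l : ℤ) * j') ((l : ℤ) * ab.1, (l : ℤ) * ab.2) = wt60 V (qi ^ l) j' ab := by
  have hl' : (0 : ℤ) < l := by exact_mod_cast hl
  unfold wt60
  simp only
  have h1 : ((l : ℤ) * ab.1 + (l : ℤ) * ab.2 = 2 * ((l : ℤ) * j')) ↔ ab.1 + ab.2 = 2 * j' := by
    constructor
    · intro h
      have : (l : ℤ) * (ab.1 + ab.2) = (l : ℤ) * (2 * j') := by linear_combination h
      exact mul_left_cancel₀ hl'.ne' this
    · intro h
      linear_combination (l : ℤ) * h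
  have h2 : ((l : ℤ) * ab.1 = (l : ℤ) * ab.2) ↔ ab.1 = ab.2 :=
    ⟨fun h => mul_left_cancel₀ hl'.ne' h, fun h => by rw [h]⟩
  have h3 : ((l : ℤ) * ab.2 < (l : ℤ) * ab.1) ↔ ab.2 < ab.1 :=
    ⟨fun h => lt_of_mul_lt_mul_left h hl'.le, fun h => mul_lt_mul_of_pos_left h hl'⟩
  simp only [h1, h2, h3]
  split_ifs with hs he hlt
  · rfl
  · have hm : (0 : ℤ) ≤ ab.1 - j' := by omega
    obtain ⟨m, hm'⟩ := Int.eq_ofNat_of_zero_le hm
    have e1 : ((l : ℤ) * ab.1 - (l : ℤ) * j').toNat = l * m := by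
      rw [← mul_sub, hm']
      exact_mod_cast Int.toNat_natCast (l * m)
    rw [e1, hm', Int.toNat_natCast, pow_mul]
  · rfl
  · rfl

theorem wt60_dil_odd (V qi : ℂ) (j : ℤ) (hj : ¬ (2 : ℤ) ∣ j) (ab : ℤ × ℤ) :
    wt60 V qi j ((2 : ℤ) * ab.1, (2 : ℤ) * ab.2) = wtOdd60 qi j ab := by
  unfold wt60 wtOdd60
  simp only
  by_cases hs : ab.1 + ab.2 = j
  · by_cases hlt : ab.2 < ab.1
    · rw [if_pos (by omega), if_neg (by omega), if_pos (by omega), if_pos ⟨hs, hlt⟩]
      congr 2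
      omega
    · rw [if_pos (by omega), if_neg (by omega), if_neg (by omega), if_neg (fun h => hlt h.2)]
  · rw [if_neg (by omega), if_neg (fun h => hs h.1)]

theorem lin_lc60 (L : ((ℤ × ℤ) →₀ ℂ) →ₗ[ℂ] ℂ) (q : ℕ) (f : (ℤ × ℤ) →₀ ℂ) :
    L (Finsupp.linearCombination ℂ (satCoef60 q) f)
      = f.sum fun lam c => c * L (satCoef60 q lam) := by
  rw [Finsupp.linearCombination_apply, map_finsuppSum]
  simp only [map_smul, smul_eq_mul]

/-- **T6.13.1 (BCGeo).** -/
theorem bcGeo60 : BCGeoC := by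
  intro q l r j hq hl hdvd φ f hφ hf hbc
  have hq0 : 0 < q := by omega
  have hl0 : 0 < l := hl.pos
  have hQ0 : 0 < q ^ l := pow_pos hq0 l
  have hcoef : Finsupp.linearCombination ℂ (satCoef60 q) f
      = dil60 l (Finsupp.linearCombination ℂ (satCoef60 (q ^ l)) φ) := by
    rw [← sub_eq_zero]
    apply ev60_eq_zero
    intro x y hx hy
    rw [map_sub, ev60_dil60, sub_eq_zero, lin_lc60, lin_lc60]
    have := hbc x y hx hy
    simp only [ev60_satCoef60 q hq0 x y hx hy,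
      ev60_satCoef60 (q ^ l) hQ0 _ _ (pow_ne_zero l hx) (pow_ne_zero l hy)]
    exact this
  have hΦ := congrArg (Finsupp.linearCombination ℂ (wt60 (ballCard q r : ℂ) (q : ℂ)⁻¹ j)) hcoef
  rw [lin_lc60, lc_dil60] at hΦ
  have hL : (f.sum fun lam c => c *
      Finsupp.linearCombination ℂ (wt60 (ballCard q r : ℂ) (q : ℂ)⁻¹ j) (satCoef60 q lam))
      = f.sum fun lam c => c * wGeo q r j lam := by
    refine Finsupp.sum_congr fun lam hlam => ?_
    rw [phi_even60 q hq0 _ j lam (hf lam hlam)]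
    rfl
  rw [hL] at hΦ
  rw [hΦ]
  by_cases hd : (l : ℤ) ∣ j
  · obtain ⟨j', rfl⟩ := hd
    have hw : (fun ab : ℤ × ℤ => wt60 (ballCard q r : ℂ) (q : ℂ)⁻¹ ((l : ℤ) * j')
        ((l : ℤ) * ab.1, (l : ℤ) * ab.2)) = wt60 (ballCard q r : ℂ) (((q ^ l : ℕ) : ℂ))⁻¹ j' := by
      funext ab
      rw [wt60_dil_even _ _ l hl0]
      congr 1
      push_cast
      rw [inv_pow]
    rw [hw, lin_lc60]
    refine Finsupp.sum_congr fun lam hlam => ?_
    rw [phi_even60 (q ^ l) hQ0 _ j' lam (hφ lam hlam)]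
    unfold wTw
    rw [if_pos (dvd_mul_right _ _)]
    unfold wTwEven
    rw [Int.mul_ediv_cancel_left _ (by exact_mod_cast hl0.ne')]
    push_cast
    rfl
  · have hl2 : l = 2 := hdvd.resolve_left hd
    subst hl2
    have hj : ¬ (2 : ℤ) ∣ j := by exact_mod_cast hd
    have hw : (fun ab : ℤ × ℤ => wt60 (ballCard q r : ℂ) (q : ℂ)⁻¹ j
        (((2 : ℕ) : ℤ) * ab.1, ((2 : ℕ) : ℤ) * ab.2)) = wtOdd60 (q : ℂ)⁻¹ j := by
      funext ab
      exact wt60_dil_odd _ _ j hj ab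
    rw [hw, lin_lc60]
    refine Finsupp.sum_congr fun lam hlam => ?_
    rw [phi_odd60 q hq0 j hj lam (hφ lam hlam)]
    unfold wTw
    rw [if_neg hd]

/-- **T6.13 from the two orbit-sum leaves.** -/
theorem flEllUnr_of_orb60 (hG : OrbEllUnrC) (hT : TwOrbEllUnrC) : FLEllUnrC :=
  flEllUnr_of_leaves bcGeo60 hG hT

end Fermat.Agent.LT.T6.H60
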