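import Mathlib
import Fermat.Agent.LT.T6.H60.EllUnrSpec2
import Fermat.Agent.LT.T6.H60.BCGeo
import Fermat.Agent.LT.H338.TreeInv
import Fermat.Agent.LT.H338.TreeTri

/-!
# Row LT, tower T6, leaf T6.13 -- ASSEMBLY on the tree (helper60), OFF-MAIN

`flEllUnr_of_four60 : VertSumGeoC → VertSumTwC → FixGeoC → FixTwC → FLEllUnrC`:
the fundamental lemma at regular elliptic `γ` with `k[γ]/k` unramified, from the four finer leaves
of `EllUnrSpec2.lean` (the algebra `BCGeoC` is proved in `BCGeo.lean`).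

* `cartan_conj60`, `cartan_twconj60` : the integrand on the vertices (for the owners of the
  vertex-sum leaves): `cartan (x⁻¹ γ x) = invOf60 (ordDet γ) (btDist340 [x] (γ [x]))`.
* `vertSum_regroup60` : a plain vertex sum regrouped by the displacement.
* `weight_even60`, `weight_odd60` : the displacement counts of helper338
  (`ncard_disp_even338`, `ncard_disp_odd338`) are the weights `wFix`, `wTwOdd`.
* `iterate_btTw_order60` : `(δ σ)^l = N δ` on the vertices; `ordDet_norm60` :
  `l · ord det δ = ord det γ`.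
* `orbEllUnr_of60 : VertSumGeoC → FixGeoC → OrbEllUnrC`,
  `twOrbEllUnr_of60 : VertSumTwC → FixGeoC → FixTwC → TwOrbEllUnrC`
  (`fixed_or_inv338`: `δ σ` fixes a vertex, then `l ∣ j`, or inverts an edge, then `l = 2` and
  `j` is odd).
-/

set_option autoImplicit false

open scoped Matrix

noncomputable section

namespace Fermat.Agent.LT.T6.H60

open Fermat.Agent.LT.T6 Fermat.Agent.LT.T6.H340 Fermat.Agent.LT.H338

/-! ### The Cartan invariant from the determinant and the displacement -/

section Basic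

variable {k : Type} [Field k] [Valued k Γ₀]

set_option linter.unusedSectionVars false

theorem cartan_eq_invOf60 (g : GL (Fin 2) k) : cartan g = invOf60 (ordDet g) (cdist340 g) := by
  have h1 := cartan_fst_sub_snd340 g
  have h2 := cartan_fst_add_snd340 g
  unfold invOf60 ordDet
  ext
  · simp only
    omega
  · simp only
    omega

theorem det_conj60 (γ x : GL (Fin 2) k) :
    ((x⁻¹ * γ * x : GL (Fin 2) k) : Matrix (Fin 2) (Fin 2) k).det
      = (γ : Matrix (Fin 2) (Fin 2) k).det := by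
  have h : ((x⁻¹ : GL (Fin 2) k) : Matrix (Fin 2) (Fin 2) k).det
      * (x : Matrix (Fin 2) (Fin 2) k).det = 1 := by
    rw [← Matrix.det_mul, ← Units.val_mul, inv_mul_cancel, Units.val_one, Matrix.det_one]
  rw [Units.val_mul, Units.val_mul, Matrix.det_mul, Matrix.det_mul]
  linear_combination (γ : Matrix (Fin 2) (Fin 2) k).det * h

theorem ordDet_conj60 (γ x : GL (Fin 2) k) : ordDet (x⁻¹ * γ * x) = ordDet γ := by
  unfold ordDet
  rw [det_conj60]

theorem det_glAut60 (s : k ≃+* k) (g : GL (Fin 2) k) :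
    ((glAut s g : GL (Fin 2) k) : Matrix (Fin 2) (Fin 2) k).det
      = s (g : Matrix (Fin 2) (Fin 2) k).det := by
  rw [Matrix.det_fin_two, Matrix.det_fin_two]
  simp only [coe_glAut340, map_sub, map_mul]

theorem vdet_twconj60 (s : k ≃+* k) (hs : ∀ y : k, Valued.v (s y) = Valued.v y)
    (δ x : GL (Fin 2) k) :
    Valued.v ((x⁻¹ * δ * glAut s x : GL (Fin 2) k) : Matrix (Fin 2) (Fin 2) k).det
      = Valued.v (δ : Matrix (Fin 2) (Fin 2) k).det := by
  have h : ((x⁻¹ : GL (Fin 2) k) : Matrix (Fin 2) (Fin 2) k).det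
      * (x : Matrix (Fin 2) (Fin 2) k).det = 1 := by
    rw [← Matrix.det_mul, ← Units.val_mul, inv_mul_cancel, Units.val_one, Matrix.det_one]
  have h' : Valued.v ((x⁻¹ : GL (Fin 2) k) : Matrix (Fin 2) (Fin 2) k).det
      * Valued.v (x : Matrix (Fin 2) (Fin 2) k).det = 1 := by
    rw [← map_mul, h, map_one]
  rw [Units.val_mul, Units.val_mul, Matrix.det_mul, Matrix.det_mul, map_mul, map_mul,
    det_glAut60, hs, mul_right_comm, h', one_mul]

theorem ordDet_twconj60 (s : k ≃+* k) (hs : ∀ y : k, Valued.v (s y) = Valued.v y)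
    (δ x : GL (Fin 2) k) : ordDet (x⁻¹ * δ * glAut s x) = ordDet δ := by
  unfold ordDet
  rw [vdet_twconj60 s hs]

/-- For the owners of `VertSumGeoC`: the integrand on the vertices. -/
theorem cartan_conj60 (γ x : GL (Fin 2) k) :
    cartan (x⁻¹ * γ * x)
      = invOf60 (ordDet γ) (btDist340 (btMk340 x) (btMul340 γ (btMk340 x))) := by
  rw [cartan_eq_invOf60, ordDet_conj60, btDist340_mul_mk]

/-- For the owners of `VertSumTwC`: the integrand on the vertices. -/
theorem cartan_twconj60 (s : k ≃+* k) (hs : ∀ y : k, Valued.v (s y) = Valued.v y)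
    (δ x : GL (Fin 2) k) :
    cartan (x⁻¹ * δ * glAut s x)
      = invOf60 (ordDet δ) (btDist340 (btMk340 x) (btTw340 s hs δ (btMk340 x))) := by
  rw [cartan_eq_invOf60, ordDet_twconj60 s hs, btDist340_tw_mk]

/-- Parity: `ord det` of a (twisted) conjugate and the displacement. -/
theorem ordDet_add_cdist_even60 (g : GL (Fin 2) k) : (2 : ℤ) ∣ ordDet g + (cdist340 g : ℤ) := by
  have h1 := cartan_fst_sub_snd340 g
  have h2 := cartan_fst_add_snd340 g
  unfold ordDet
  exact ⟨(cartan g).1, by omega⟩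

end Basic

/-! ### Regrouping a vertex sum by the displacement -/

section Regroup

variable {V : Type} (disp : V → ℕ) (D : ℤ)

theorem invOf60_inj {D : ℤ} {m : ℕ} (hpar : (2 : ℤ) ∣ D + (m : ℤ)) (lam : ℤ × ℤ) :
    invOf60 D m = lam ↔ (lam.1 + lam.2 = D ∧ lam.2 ≤ lam.1 ∧ (lam.1 - lam.2).toNat = m) := by
  obtain ⟨a, b⟩ := lam
  unfold invOf60
  simp only [Prod.mk.injEq]
  obtain ⟨t, ht⟩ := hpar
  constructor
  · rintro ⟨h1, h2⟩
    omega
  · rintro ⟨h1, h2, h3⟩
    omega

/-- **Regrouping.**  If all displacements have the parity of `D` and the sets of vertices of a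
given displacement are finite, a plain vertex sum of `φ (inv v)` is the sum of `φ (lam)` times
the number of vertices with `inv v = lam`. -/
theorem vertSum_regroup60 (hpar : ∀ v, (2 : ℤ) ∣ D + (disp v : ℤ))
    (hfin : ∀ m : ℕ, {v | disp v = m}.Finite) (φ : (ℤ × ℤ) →₀ ℂ) (c : ℂ)
    (H : ∀ S : Finset V, (∀ v, φ (invOf60 D (disp v)) ≠ 0 → v ∈ S) →
      c = ∑ v ∈ S, φ (invOf60 D (disp v))) :
    c = φ.sum fun lam x => x *
      (if lam.1 + lam.2 = D ∧ lam.2 ≤ lam.1
        then ({v | disp v = (lam.1 - lam.2).toNat}.ncard : ℂ) else 0) := by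
  classical
  -- the fibre of `lam`
  set Fib : ℤ × ℤ → Finset V := fun lam =>
    if lam.1 + lam.2 = D ∧ lam.2 ≤ lam.1 then (hfin (lam.1 - lam.2).toNat).toFinset else ∅
    with hFib
  have hmem : ∀ lam v, v ∈ Fib lam ↔ invOf60 D (disp v) = lam := by
    intro lam v
    rw [invOf60_inj (hpar v)]
    simp only [hFib]
    split_ifs with h
    · rw [Set.Finite.mem_toFinset]
      simp only [Set.mem_ofPred_eq]
      constructor
      · intro hv; exact ⟨h.1, h.2, hv.symm⟩
      · intro hv; exact hv.2.2.symm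
    · simp only [Finset.notMem_empty, false_iff]
      intro hv
      exact h ⟨hv.1, hv.2.1⟩
  have hcard : ∀ lam, ((Fib lam).card : ℂ)
      = (if lam.1 + lam.2 = D ∧ lam.2 ≤ lam.1
        then ({v | disp v = (lam.1 - lam.2).toNat}.ncard : ℂ) else 0) := by
    intro lam
    simp only [hFib]
    split_ifs with h
    · rw [Set.ncard_eq_toFinset_card _ (hfin _)]
    · simp
  have hS := H (φ.support.biUnion Fib) (by
    intro v hv
    rw [Finset.mem_biUnion]
    exact ⟨invOf60 D (disp v), Finsupp.mem_support_iff.2 hv, (hmem _ v).2 rfl⟩)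
  rw [hS, Finset.sum_biUnion]
  · unfold Finsupp.sum
    refine Finset.sum_congr rfl fun lam _ => ?_
    show ∑ i ∈ Fib lam, φ (invOf60 D (disp i)) = φ lam *
      (if lam.1 + lam.2 = D ∧ lam.2 ≤ lam.1
        then ({v | disp v = (lam.1 - lam.2).toNat}.ncard : ℂ) else 0)
    rw [← hcard lam]
    rw [Finset.sum_congr rfl (fun v hv => by rw [(hmem lam v).1 hv]), Finset.sum_const,
      nsmul_eq_mul, mul_comm]
  · intro lam _ lam' _ hne
    rw [Function.onFun, Finset.disjoint_left]
    intro v hv hv'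
    exact hne (((hmem lam v).1 hv).symm.trans ((hmem lam' v).1 hv'))

end Regroup

/-! ### The displacement counts of helper338 as weights -/

section Weights

variable {V : Type} {d : V → V → ℕ} (hd : IsTreeDist338 d)
  (Q : ℕ) (hQ : 1 ≤ Q) (hreg : ∀ v, {w | d v w = 1}.ncard = Q + 1)
  (g : V → V) (hg : ∀ x y, d (g x) (g y) = d x y)

include hd in
theorem disp_zero_set60 : {v | d v (g v) = 0} = {v | g v = v} := by
  ext v
  simp only [Set.mem_ofPred_eq]
  rw [hd.eq_zero]
  exact eq_comm

include hd hQ hreg hg in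
theorem fin_even60 (n₀ : ℕ) (hn₀ : 1 ≤ n₀) (hfix : {x | g x = x}.ncard = n₀) (m : ℕ) :
    {v | d v (g v) = m}.Finite := by
  have hF : {x | g x = x}.Finite := Set.finite_of_ncard_pos (by omega)
  obtain ⟨o, ho⟩ : ∃ o, g o = o := by
    have : {x | g x = x}.Nonempty := (Set.ncard_pos hF).1 (by omega)
    exact this
  rcases Nat.even_or_odd m with he | ho'
  · obtain ⟨t, ht⟩ := he
    rcases t with _ | e
    · have : m = 0 := by omega
      rw [this, disp_zero_set60 hd g]
      exact hF
    · apply Set.finite_of_ncard_pos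
      have hm : m = 2 * (e + 1) := by omega
      rw [hm, ncard_disp_even338 hd Q hreg g hg o ho hF e, hfix]
      have h1 : 0 < Q * n₀ + 2 - n₀ := by
        have : n₀ ≤ Q * n₀ := Nat.le_mul_of_pos_left n₀ hQ
        omega
      exact Nat.mul_pos h1 (pow_pos hQ e)
  · have : {v | d v (g v) = m} = ∅ := by
      ext v
      simp only [Set.mem_ofPred_eq, Set.mem_empty_iff_false, iff_false]
      intro hv
      have := disp_even338 hd g hg o ho v
      rw [hv] at this
      exact (Nat.not_even_iff_odd.2 ho') this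
    rw [this]
    exact Set.finite_empty

include hd hQ hreg hg in
theorem weight_even60 (n₀ : ℕ) (hn₀ : 1 ≤ n₀) (hfix : {x | g x = x}.ncard = n₀) (a : ℤ)
    (lam : ℤ × ℤ) :
    (if lam.1 + lam.2 = 2 * a ∧ lam.2 ≤ lam.1
        then ({v | d v (g v) = (lam.1 - lam.2).toNat}.ncard : ℂ) else 0)
      = wFix (Q : ℂ) (n₀ : ℂ) a lam := by
  have hF : {x | g x = x}.Finite := Set.finite_of_ncard_pos (by omega)
  obtain ⟨o, ho⟩ : ∃ o, g o = o := by
    have : {x | g x = x}.Nonempty := (Set.ncard_pos hF).1 (by omega)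
    exact this
  unfold wFix
  by_cases hs : lam.1 + lam.2 = 2 * a
  · rw [if_pos hs]
    by_cases he : lam.1 = lam.2
    · rw [if_pos ⟨hs, he.ge⟩, if_pos he]
      have : (lam.1 - lam.2).toNat = 0 := by omega
      rw [this, disp_zero_set60 hd g, hfix]
    · rw [if_neg he]
      by_cases hlt : lam.2 < lam.1
      · rw [if_pos ⟨hs, hlt.le⟩, if_pos hlt]
        obtain ⟨e, he'⟩ : ∃ e : ℕ, (lam.1 - a).toNat = e + 1 := ⟨(lam.1 - a).toNat - 1, by omega⟩
        have hm : (lam.1 - lam.2).toNat = 2 * (e + 1) := by omega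
        rw [hm, ncard_disp_even338 hd Q hreg g hg o ho hF e, hfix, he']
        have h1 : n₀ ≤ Q * n₀ + 2 := by
          have : n₀ ≤ Q * n₀ := Nat.le_mul_of_pos_left n₀ hQ
          omega
        rw [Nat.add_sub_cancel]
        push_cast [Nat.cast_sub h1]
        ring
      · rw [if_neg (fun h => hlt (lt_of_le_of_ne h.2 (Ne.symm he))), if_neg hlt]
  · rw [if_neg hs, if_neg (fun h => hs h.1)]

variable (a b : V) (hab : d a b = 1) (hga : g a = b) (hgb : g b = a)

include hd hQ hreg hg hab hga hgb in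
theorem fin_odd60 (m : ℕ) : {v | d v (g v) = m}.Finite := by
  rcases Nat.even_or_odd m with he | ho'
  · have : {v | d v (g v) = m} = ∅ := by
      ext v
      simp only [Set.mem_ofPred_eq, Set.mem_empty_iff_false, iff_false]
      intro hv
      have := disp_odd338 hd g hg a b hab hga hgb v
      rw [hv] at this
      exact (Nat.not_odd_iff_even.2 he) this
    rw [this]
    exact Set.finite_empty
  · obtain ⟨e, he⟩ := ho'
    apply Set.finite_of_ncard_pos
    rw [he, ncard_disp_odd338 hd Q hreg g hg a b hab hga hgb e]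
    exact Nat.mul_pos (by norm_num) (pow_pos hQ e)

include hd hreg hg hab hga hgb in
theorem weight_odd60 (q : ℕ) (hq : Q = q ^ 2) (j : ℤ) (hj : ¬ (2 : ℤ) ∣ j) (lam : ℤ × ℤ) :
    (if lam.1 + lam.2 = j ∧ lam.2 ≤ lam.1
        then ({v | d v (g v) = (lam.1 - lam.2).toNat}.ncard : ℂ) else 0)
      = wTwOdd q j lam := by
  unfold wTwOdd
  by_cases hs : lam.1 + lam.2 = j ∧ lam.2 ≤ lam.1
  · have hlt : lam.2 < lam.1 := by
      rcases lt_or_eq_of_le hs.2 with h | h
      · exact h
      · exfalso; apply hj; exact ⟨lam.2, by omega⟩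
    rw [if_pos hs, if_pos ⟨hs.1, hlt⟩]
    obtain ⟨e, he⟩ : ∃ e : ℕ, ((lam.1 - lam.2 - 1) / 2).toNat = e := ⟨_, rfl⟩
    have hm : (lam.1 - lam.2).toNat = 2 * e + 1 := by omega
    rw [hm, ncard_disp_odd338 hd Q hreg g hg a b hab hga hgb e, he, hq]
    push_cast
    ring
  · rw [if_neg hs, if_neg (fun h => hs ⟨h.1, h.2.le⟩)]

end Weights

/-! ### The assembly on the tree of `k` -/

theorem ballCard_pos60 (q r : ℕ) : 1 ≤ ballCard q r := by
  unfold ballCard
  omega

/-- **T6.13.2 from the vertex sum and the fixed ball.** -/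
theorem orbEllUnr_of60 (hV : VertSumGeoC) (hF : FixGeoC) : OrbEllUnrC := by
  intro k _ _ q hk γ hreg hE hR
  obtain ⟨j, r, hj, hr, hfix⟩ := hF k q hk γ hreg hE hR
  refine ⟨j, r, hj, hr, ?_⟩
  intro f c' hc'
  have hd := isTreeDist_btDist340 hk
  have hnb := ncard_nb_btDist340 hk
  have hq : 1 ≤ q := (one_lt_of_isLocalField hk).le
  have hg := btDist340_mul γ
  have hpos := ballCard_pos60 q r
  have hfin := fin_even60 hd q hq hnb (btMul340 γ) hg (ballCard q r) hpos hfix
  have hpar : ∀ v, (2 : ℤ) ∣ ordDet γ + (btDist340 v (btMul340 γ v) : ℤ) := by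
    intro v
    obtain ⟨x, rfl⟩ := btMk340_surjective v
    rw [btDist340_mul_mk, ← ordDet_conj60 γ x]
    exact ordDet_add_cdist_even60 _
  have := vertSum_regroup60 (fun v => btDist340 v (btMul340 γ v)) (ordDet γ) hpar hfin f c'
    (hV k q hk γ hreg hE hR f c' hc')
  rw [this]
  refine Finsupp.sum_congr fun lam _ => ?_
  rw [hj, weight_even60 hd q hq hnb (btMul340 γ) hg (ballCard q r) hpos hfix j lam]
  rfl

/-! ### The twisted action and the norm -/

section Twisted

variable {k k' : Type} [Field k] [Field k'] [Valued k Γ₀] [Valued k' Γ₀]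

set_option linter.unusedSectionVars false

theorem coe_map60 (i : k →+* k') (g : GL (Fin 2) k) (a b : Fin 2) :
    ((Matrix.GeneralLinearGroup.map i g : GL (Fin 2) k') : Matrix (Fin 2) (Fin 2) k') a b
      = i ((g : Matrix (Fin 2) (Fin 2) k) a b) := rfl

theorem det_map60 (i : k →+* k') (g : GL (Fin 2) k) :
    ((Matrix.GeneralLinearGroup.map i g : GL (Fin 2) k') : Matrix (Fin 2) (Fin 2) k').det
      = i (g : Matrix (Fin 2) (Fin 2) k).det := by
  rw [Matrix.det_fin_two, Matrix.det_fin_two]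
  simp only [coe_map60, map_sub, map_mul]

theorem cartan_map60 (i : k →+* k') (hi : ∀ x : k, Valued.v (i x) = Valued.v x)
    (g : GL (Fin 2) k) : cartan (Matrix.GeneralLinearGroup.map i g) = cartan g := by
  have h1 : entryMax (Matrix.GeneralLinearGroup.map i g) = entryMax g := by
    unfold entryMax
    congr 1
    funext p
    rw [coe_map60, hi]
  unfold cartan
  rw [h1, det_map60, hi]

theorem cdist340_map60 (i : k →+* k') (hi : ∀ x : k, Valued.v (i x) = Valued.v x)
    (g : GL (Fin 2) k) : cdist340 (Matrix.GeneralLinearGroup.map i g) = cdist340 g := by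
  unfold cdist340
  rw [cartan_map60 i hi]

theorem ordDet_map60 (i : k →+* k') (hi : ∀ x : k, Valued.v (i x) = Valued.v x)
    (g : GL (Fin 2) k) : ordDet (Matrix.GeneralLinearGroup.map i g) = ordDet g := by
  unfold ordDet
  rw [det_map60, hi]

variable (s : k' ≃+* k') (hs : ∀ y : k', Valued.v (s y) = Valued.v y)

theorem coe_iterate_glAut60 (n : ℕ) (x : GL (Fin 2) k') (a b : Fin 2) :
    (((glAut s)^[n] x : GL (Fin 2) k') : Matrix (Fin 2) (Fin 2) k') a b
      = (s ^ n) ((x : Matrix (Fin 2) (Fin 2) k') a b) := by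
  induction n with
  | zero => simp
  | succ n ih =>
    rw [Function.iterate_succ_apply', coe_glAut340, ih, pow_succ', RingAut.mul_apply]

theorem iterate_glAut60 (l : ℕ) (hord : ∀ y : k', (s ^ l) y = y) (x : GL (Fin 2) k') :
    (glAut s)^[l] x = x := by
  apply Units.ext
  ext a b
  rw [coe_iterate_glAut60, hord]

theorem iterate_btTw60 (δ : GL (Fin 2) k') (n : ℕ) (x : GL (Fin 2) k') :
    (btTw340 s hs δ)^[n] (btMk340 x) = btMk340 (twNorm s n δ * (glAut s)^[n] x) := by
  induction n with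
  | zero =>
    simp only [Function.iterate_zero, id_eq]
    unfold twNorm twN
    rw [one_mul]
  | succ n ih =>
    rw [Function.iterate_succ_apply', ih, btTw340_mk, Function.iterate_succ_apply', map_mul]
    unfold twNorm
    rw [show twN (glAut s) (n + 1) δ = δ * glAut s (twN (glAut s) n δ) from rfl, mul_assoc]

theorem iterate_btTw_order60 (δ : GL (Fin 2) k') (l : ℕ) (hord : ∀ y : k', (s ^ l) y = y)
    (v : BTVert340 k') : (btTw340 s hs δ)^[l] v = btMul340 (twNorm s l δ) v := by
  obtain ⟨x, rfl⟩ := btMk340_surjective v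
  rw [iterate_btTw60, iterate_glAut60 s l hord, btMul340_mk]

include hs in
theorem vdet_twNorm60 (δ : GL (Fin 2) k') (n : ℕ) :
    Valued.v ((twNorm s n δ : GL (Fin 2) k') : Matrix (Fin 2) (Fin 2) k').det
      = Valued.v (δ : Matrix (Fin 2) (Fin 2) k').det ^ n := by
  induction n with
  | zero =>
    unfold twNorm twN
    simp
  | succ n ih =>
    unfold twNorm at ih ⊢
    rw [show twN (glAut s) (n + 1) δ = δ * glAut s (twN (glAut s) n δ) from rfl,
      Units.val_mul, Matrix.det_mul, map_mul, det_glAut60, hs, ih, pow_succ, mul_comm]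

theorem det_of_isConj60 {a b : GL (Fin 2) k'} (h : IsConj a b) :
    (a : Matrix (Fin 2) (Fin 2) k').det = (b : Matrix (Fin 2) (Fin 2) k').det := by
  obtain ⟨c, hc⟩ := isConj_iff.1 h
  have : a = c⁻¹ * b * c := by rw [← hc]; group
  rw [this, det_conj60]

include hs in
/-- `l · ord det δ = ord det γ`. -/
theorem ordDet_norm60 (i : k →+* k') (hi : ∀ x : k, Valued.v (i x) = Valued.v x)
    (δ : GL (Fin 2) k') (γ : GL (Fin 2) k) (l : ℕ)
    (hconj : IsConj (twNorm s l δ) (Matrix.GeneralLinearGroup.map i γ)) :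
    (l : ℤ) * ordDet δ = ordDet γ := by
  have h1 := vdet_twNorm60 s hs δ l
  rw [det_of_isConj60 hconj, det_map60, hi] at h1
  unfold ordDet
  rw [h1, WithZero.log_pow]
  simp only [nsmul_eq_mul]
  ring

end Twisted

/-! ### The assembly on the tree of `k'` -/

/-- **T6.13.3 from the vertex sum and the fixed vertices.** -/
theorem twOrbEllUnr_of60 (hV : VertSumTwC) (hFG : FixGeoC) (hFT : FixTwC) : TwOrbEllUnrC := by
  intro k k' _ _ _ _ q l i s hk hk' hext hl δ γ hreg hE hR hconj j r hj hr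
  have hs := hext.val_s
  have hi : ∀ x : k, Valued.v (i x) = Valued.v x := fun x => by rw [hext.val_i, pow_one]
  have hd := isTreeDist_btDist340 hk'
  have hnb := ncard_nb_btDist340 hk'
  have hq := one_lt_of_isLocalField hk
  have hQ : 1 ≤ q ^ l := Nat.one_le_pow _ _ (by omega)
  have hg := btDist340_tw s hs δ
  have hdet := ordDet_norm60 s hs i hi δ γ l hconj
  rw [hj] at hdet
  have hpar : ∀ v, (2 : ℤ) ∣ ordDet δ + (btDist340 v (btTw340 s hs δ v) : ℤ) := by
    intro v
    obtain ⟨x, rfl⟩ := btMk340_surjective v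
    rw [btDist340_tw_mk, ← ordDet_twconj60 s hs δ x]
    exact ordDet_add_cdist_even60 _
  -- a fixed vertex of `F ^ l`
  obtain ⟨y₀, hy₀⟩ : ∃ y₀, (btTw340 s hs δ)^[l] y₀ = y₀ := by
    obtain ⟨j', r', -, -, hfix⟩ := hFG k q hk γ hreg hE hR
    have hne : {v : BTVert340 k | btMul340 γ v = v}.Nonempty := by
      apply Set.nonempty_of_ncard_ne_zero
      rw [hfix]
      have := ballCard_pos60 q r'
      omega
    obtain ⟨v, hv⟩ := hne
    obtain ⟨x, rfl⟩ := btMk340_surjective v
    have h0 : cdist340 (x⁻¹ * γ * x) = 0 := by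
      rw [← btDist340_mul_mk]
      rw [Set.mem_ofPred_eq] at hv
      rw [hv]
      exact (btDist340_eq_zero _ _).2 rfl
    obtain ⟨c, hc⟩ := isConj_iff.1 hconj
    refine ⟨btMk340 (c⁻¹ * Matrix.GeneralLinearGroup.map i x), ?_⟩
    rw [iterate_btTw_order60 s hs δ l hext.cyc.order, btMul340_mk, btMk340_eq_iff]
    have e : (twNorm s l δ * (c⁻¹ * Matrix.GeneralLinearGroup.map i x))⁻¹
        * (c⁻¹ * Matrix.GeneralLinearGroup.map i x)
        = (Matrix.GeneralLinearGroup.map i (x⁻¹ * γ * x))⁻¹ := by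
      have : twNorm s l δ = c⁻¹ * Matrix.GeneralLinearGroup.map i γ * c := by
        rw [← hc]; group
      rw [this, map_mul, map_mul, map_inv]
      group
    rw [e, cdist340_inv, cdist340_map60 i hi, h0]
  rcases fixed_or_inv338 hd (btTw340 s hs δ) hg l hl.pos y₀ hy₀ with
    ⟨v₀, hv₀⟩ | ⟨a, b, hab, hga, hgb⟩
  · -- `F` fixes a vertex
    have hfix := hFT k k' q l i s hk hk' hext hl δ γ hreg hE hR hconj j r hj hr ⟨v₀, hv₀⟩
    have hev : (2 : ℤ) ∣ ordDet δ := by
      have := hpar v₀
      rw [hv₀, (btDist340_eq_zero _ _).2 rfl] at this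
      simpa using this
    obtain ⟨a, ha⟩ := hev
    have hja : j = (l : ℤ) * a := by
      rw [ha] at hdet
      linarith
    have hdvd : (l : ℤ) ∣ j := ⟨a, hja⟩
    refine ⟨Or.inl hdvd, ?_⟩
    intro φ c hc
    have hpos := ballCard_pos60 q r
    have hfin := fin_even60 hd (q ^ l) hQ hnb (btTw340 s hs δ) hg (ballCard q r) hpos hfix
    have := vertSum_regroup60 (fun v => btDist340 v (btTw340 s hs δ v)) (ordDet δ) hpar hfin φ c
      (hV k k' q l i s hk hk' hext hl δ γ hreg hE hR hconj φ c hc)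
    rw [this]
    refine Finsupp.sum_congr fun lam _ => ?_
    rw [ha, weight_even60 hd (q ^ l) hQ hnb (btTw340 s hs δ) hg (ballCard q r) hpos hfix a lam]
    unfold wTw
    rw [if_pos hdvd]
    unfold wTwEven
    have hdiv : j / (l : ℤ) = a := by
      rw [hja]
      exact Int.mul_ediv_cancel_left _ (by exact_mod_cast hl.pos.ne')
    rw [hdiv]
    push_cast
    rfl
  · -- `F` inverts an edge
    have hodd : ¬ (2 : ℤ) ∣ ordDet δ := by
      have h1 := hpar a
      rw [hga, hab] at h1
      intro h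
      obtain ⟨t, ht⟩ := h1
      obtain ⟨u, hu⟩ := h
      push_cast at ht
      omega
    have hl2 : l = 2 := by
      have h2l : (2 : ℤ) ∣ (l : ℤ) := by
        have h : (2 : ℤ) ∣ (l : ℤ) * ordDet δ := ⟨j, hdet⟩
        exact (Int.prime_two.dvd_mul.1 h).resolve_right hodd
      have h2 : 2 ∣ l := by exact_mod_cast h2l
      exact ((Nat.prime_dvd_prime_iff_eq Nat.prime_two hl).1 h2).symm
    subst hl2
    have hjd : ordDet δ = j := by
      push_cast at hdet
      linarith
    have hjodd : ¬ (2 : ℤ) ∣ j := hjd ▸ hodd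
    refine ⟨Or.inr rfl, ?_⟩
    intro φ c hc
    have hfin := fin_odd60 hd (q ^ 2) hQ hnb (btTw340 s hs δ) hg a b hab hga hgb
    have := vertSum_regroup60 (fun v => btDist340 v (btTw340 s hs δ v)) (ordDet δ) hpar hfin φ c
      (hV k k' q 2 i s hk hk' hext hl δ γ hreg hE hR hconj φ c hc)
    rw [this]
    refine Finsupp.sum_congr fun lam _ => ?_
    rw [hjd, weight_odd60 hd (q ^ 2) hnb (btTw340 s hs δ) hg a b hab hga hgb q rfl j hjodd lam]
    unfold wTw
    rw [if_neg (by exact_mod_cast hjodd)]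

/-- **T6.13 from the four finer leaves.** -/
theorem flEllUnr_of_four60 (hVG : VertSumGeoC) (hVT : VertSumTwC) (hFG : FixGeoC)
    (hFT : FixTwC) : FLEllUnrC :=
  flEllUnr_of_leaves bcGeo60 (orbEllUnr_of60 hVG hFG) (twOrbEllUnr_of60 hVT hFG hFT)

end Fermat.Agent.LT.T6.H60
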