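import Mathlib
import Fermat.Agent.LT.T6.H60.EllUnrSpec2
import Fermat.Agent.LT.H338.TreeSub
import Fermat.Agent.LT.H338.TreeTri

/-!
# Row LT, tower T6, leaf T6.13.3b (`FixTwC`) -- cut into CENTRE + LINK (helper60), OFF-MAIN

`F = δ σ` on the tree of `k'` (`k'/k` unramified of prime degree `l`, `N δ ∼ γ` regular elliptic
with `k[γ]/k` unramified, `ord disc γ - ord det γ = 2 r`).  If `F` fixes a vertex then its fixed
points are a "ball of the tree of `k`": `ballCard q r` in number.  By `ncard_subball338`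
(helper338) this follows from

* `TwCenterC` (T6.13.3b.1): there is a fixed vertex `c` of `F` such that every fixed vertex of `F`
  has distance `≤ r` from `c`, and `N δ = F^l` fixes the whole ball of radius `r` around `c`
  (`c` = the vertex of the lattices stable under the maximal order of `k'[N δ]`);
* `TwLinkC` (T6.13.3b.2, DESCENT ON THE LINK, no `γ`): if `F` fixes `v` and `N δ` fixes all the
  neighbours of `v`, then `F` fixes exactly `q + 1` neighbours of `v` (`v = [1]`, `δ ∈ GL₂(𝒪')`:
  `N δ ≡` scalar `ā ∈ 𝔽_q^×` mod `ϖ`, `ā = N c̄`, `Φ = (δ̄ / c̄) σ̄` is a descent datum on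
  `𝔽_Q²`, the `Φ`-stable lines are the `q + 1` lines of the `𝔽_q`-form).

`fixTw_of60 : TwCenterC → TwLinkC → FixTwC` is PROVED here.
-/

set_option autoImplicit false

open scoped Matrix

noncomputable section

namespace Fermat.Agent.LT.T6.H60

open Fermat.Agent.LT.T6 Fermat.Agent.LT.T6.H340 Fermat.Agent.LT.H338

/-- **T6.13.3b.1 (TwCenter).**  The centre of the fixed points of `δ σ`. -/
def TwCenterC : Prop :=
  ∀ (k k' : Type) [Field k] [Field k'] [Valued k Γ₀] [Valued k' Γ₀] (q l : ℕ)
    (i : k →+* k') (s : k' ≃+* k'),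
    IsLocalField k q → IsLocalField k' (q ^ l) → ∀ hext : IsLocalExt k k' l 1 i s, l.Prime →
    ∀ (δ : GL (Fin 2) k') (γ : GL (Fin 2) k), IsReg γ → ¬ HasEigen k γ → ¬ HasRamUnif k γ →
      IsConj (twNorm s l δ) (Matrix.GeneralLinearGroup.map i γ) →
      ∀ (j : ℤ) (r : ℕ), ordDet γ = 2 * j → ordDisc γ = 2 * j + 2 * (r : ℤ) →
        (∃ v : BTVert340 k', btTw340 s hext.val_s δ v = v) →
        ∃ c : BTVert340 k', btTw340 s hext.val_s δ c = c ∧
          (∀ v : BTVert340 k', btTw340 s hext.val_s δ v = v → btDist340 c v ≤ r) ∧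
          (∀ w : BTVert340 k', btDist340 c w ≤ r → btMul340 (twNorm s l δ) w = w)

/-- **T6.13.3b.2 (TwLink), descent on the link.**  If `δ σ` fixes the vertex `v` and `N δ` fixes
all the neighbours of `v`, then `δ σ` fixes exactly `q + 1` neighbours of `v`. -/
def TwLinkC : Prop :=
  ∀ (k k' : Type) [Field k] [Field k'] [Valued k Γ₀] [Valued k' Γ₀] (q l : ℕ)
    (i : k →+* k') (s : k' ≃+* k'),
    IsLocalField k q → IsLocalField k' (q ^ l) → ∀ hext : IsLocalExt k k' l 1 i s, l.Prime →
    ∀ (δ : GL (Fin 2) k') (v : BTVert340 k'), btTw340 s hext.val_s δ v = v →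
      (∀ w : BTVert340 k', btDist340 v w = 1 → btMul340 (twNorm s l δ) w = w) →
      {w : BTVert340 k' | btTw340 s hext.val_s δ w = w ∧ btDist340 v w = 1}.ncard = q + 1

/-- **T6.13.3b from the centre and the descent on the link.** -/
theorem fixTw_of60 (hC : TwCenterC) (hL : TwLinkC) : FixTwC := by
  intro k k' _ _ _ _ q l i s hk hk' hext hl δ γ hreg hE hR hconj j r hj hr hex
  obtain ⟨c, hc, hrad, hball⟩ :=
    hC k k' q l i s hk hk' hext hl δ γ hreg hE hR hconj j r hj hr hex
  have hd := isTreeDist_btDist340 hk'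
  have hg := btDist340_tw s hext.val_s δ
  have := ncard_subball338 hd c q r {v : BTVert340 k' | btTw340 s hext.val_s δ v = v} hc
    (fun v hv _ => fixed_par338 hd _ hg c hc hv)
    (fun v hv hlt => by
      refine hL k k' q l i s hk hk' hext hl δ v hv ?_
      intro w hw
      refine hball w ?_
      have h1 := tri338 hd c v w
      omega)
    hrad
  rw [this]
  rfl

end Fermat.Agent.LT.T6.H60
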