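import Mathlib
import Fermat.Agent.LT.T6.H60.EllUnrAsm
import Fermat.Agent.LT.T6.H60.EllUnrSpec3
import Fermat.Agent.LT.T6.H887.VertSum
import Fermat.Agent.LT.T6.H277.FixGeo
import Fermat.Agent.LT.T6.H277.OrbEllFinal

/-!
# Row LT, tower T6, leaf T6.13 (`FLEllUnrC`) -- CLOSED file (helper60, integrator), OFF-MAIN

Pattern of helper54's `T1/Closed.lean`: `structure Open613` = the leaves of T6.13 STILL open,
`flEllUnr_of_open613 : Open613 → FLEllUnrC`; the closed leaves are discharged inside by
byte-identical vendored files (on `T6/Spec.lean` v3, sha256 8c5f2ae7).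

CLOSED: `BCGeoC` (helper60 `BCGeo.lean`; spares helper423, helper526), the assembly
(`EllUnrAsm.lean`, `EllUnrSpec3.lean`), `VertSumGeoC` + `VertSumTwC` (helper887
`T6/H887/VertSum.lean`, on helper340 `VertexSum.lean`, helper166 `TwCent.lean`,
helper129 `Newton.lean`), `FixGeoC` and `OrbEllUnrC` (helper277 `T6/H277/FixGeo.lean`,
`OrbEllFinal.lean`, on helper546 `PolyNF`, helper926 `DiscUnit`, helper69 `FixBall`,
helper439 `BallCount`, helper293 `BTTree`, helper338 `LatticeTree`).

OPEN: `FixTwC` (= `TwCenterC` + `TwLinkC`), or directly `TwOrbEllUnrC`.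
-/

set_option autoImplicit false

namespace Fermat.Agent.LT.T6.H60

open Fermat.Agent.LT.T6

/-- **T6.13 from the twisted orbit-sum leaf.** -/
theorem flEllUnr_of_twOrb60 (hT : TwOrbEllUnrC) : FLEllUnrC :=
  flEllUnr_of_orb60 Fermat.Agent.LT.T6.H277.orbEllUnrC277 hT

/-- **T6.13 from the twisted fixed-point count.** -/
theorem flEllUnr_of_fixTw60 (hFT : FixTwC) : FLEllUnrC :=
  flEllUnr_of_twOrb60
    (twOrbEllUnr_of60 Fermat.Agent.LT.T6.H887.vertSumTwC887
      Fermat.Agent.LT.T6.H277.fixGeoC277 hFT)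

/-- The leaves of T6.13 which are still open. -/
structure Open613 : Prop where
  twCenter : TwCenterC
  twLink : TwLinkC

/-- **T6.13 from its open leaves.** -/
theorem flEllUnr_of_open613 (h : Open613) : FLEllUnrC :=
  flEllUnr_of_fixTw60 (fixTw_of60 h.twCenter h.twLink)

end Fermat.Agent.LT.T6.H60
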