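import Mathlib
import Fermat.Agent.LT.T6.H60.Closed613
import Fermat.Agent.LT.T6.H865.FixTwClosed

/-!
# Row LT, tower T6, leaf T6.13 `FLEllUnrC` -- CLOSED, UNCONDITIONAL (helper60, integrator), OFF-MAIN

`flEllUnrC60 : Fermat.Agent.LT.T6.FLEllUnrC` (the Prop of `T6/Spec.lean`, v3 sha256 8c5f2ae7,
byte-unchanged since v1): the fundamental lemma for base change at an elliptic element whose
torus is unramified, for the unit element of the Hecke algebra.

Assembly (`Closed613.lean`): `FLEllUnrC ⇐ BCGeoC + OrbEllUnrC + TwOrbEllUnrC`,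
`TwOrbEllUnrC ⇐ VertSumTwC + FixGeoC + FixTwC`; closed leaves, all vendored byte-identical:
* `BCGeoC` : helper60 `BCGeo.lean`;
* `OrbEllUnrC`, `FixGeoC` : helper277 (`T6/H277/OrbEllFinal.lean`, `FixGeo.lean`);
* `VertSumGeoC`, `VertSumTwC` : helper887 (`T6/H887/VertSum.lean`);
* `FixTwC` : helper865 (`T6/H865/FixTwClosed.lean`), with the leaves of helper811 (`NFExistsC865`),
  helper264 (`LatSumC865`), helper820 (`H90rC865`), helper241 (`FixSigmaC865`), helper426
  (`OutsideC865`), helper864 (`CongFixC865`), helper439 (`BallCountC`).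
-/

set_option autoImplicit false

namespace Fermat.Agent.LT.T6.H60

open Fermat.Agent.LT.T6

/-- **T6.13 (`FLEllUnrC`), closed.** -/
theorem flEllUnrC60 : FLEllUnrC :=
  flEllUnr_of_fixTw60 Fermat.Agent.LT.T6.H865.fixTwC865

end Fermat.Agent.LT.T6.H60
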